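import Mathlib
import Fermat.Agent.A2.H129.KummerJZero
import Fermat.Agent.S18.H568.D2

/-!
# A2 / D2 (helper133): level descent of the Kummer form of wall A2

`A2Kummer N m σ` (`Fermat.Agent.A2.H129`, on main) is the Kummer form of wall A2 at level `N`:
for every `f ≠ 0` in `Q̄(X₀(N))` whose divisor is divisible by `m`, `(σ - 1)² f` is a constant
times an `m`-th power.

* `a2Kummer_of_dvd` : for `N ∣ M` with `[F_M : F_N]` finite and prime to `m`,
  `A2Kummer M m σ → A2Kummer N m σ`.
* `a2Kummer_of_mul_prime` : the case `M = N * p`, `p ∤ N` prime, `gcd (p + 1) m = 1`.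
* `a2Kummer_node_d2` : `A2Kummer (if q = 3 then lcm N 2 else if q = 2 then lcm N 3 else N) m σ →
  A2Kummer N m σ` whenever `q ∤ m` (same auxiliary level as `S18.H568.node_d2`).
  So the MODEL pieces of cell A2 may assume that the level carries the `S18` coordinate
  (`j` for `q ≥ 5`, the Hauptmodul `t₂` for `q = 3`, `t₃` for `q = 2`).
* `unipotent_JZero_of_kummer_aux` : strong A2 at level `N` from `A2Kummer` at the auxiliary level.

Proof: the arithmetic Galois action is coefficientwise on `Q̄((q))`, so it commutes with the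
inclusion `F_N ⊆ F_M`; `ord_w (f) = e(w) · ord_{w|F_N} (f)` (Prelude `Place.ord_restrictAlong`);
norm trick (`S18.H568.exists_pow_of_norm_coprime`, on main); degree `[F_{Np} : F_N] = p + 1`
(`S28.H988.relfinrank_bar_mul_prime`, on main).
-/

set_option autoImplicit false
set_option linter.style.haveILetI false

noncomputable section

namespace Fermat.Agent.A2.H133

open ModularCurve AlgebraicCurve HahnSeries IntermediateField Module
open Fermat.Agent.A2.H129 Fermat.Agent.S18.H568

local notation "Q̄" => AlgebraicClosure ℚ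

/-- The arithmetic Galois action commutes with the inclusion of levels. -/
theorem inclusion_arithmeticRingAut {N M : ℕ} [NeZero N] [NeZero M] (h : N ∣ M)
    (σ : Q̄ ≃ₐ[ℚ] Q̄) (f : modularFunctionFieldBar N) :
    IntermediateField.inclusion (bar_le_of_dvd h)
        (arithmeticRingAut (modularFunctionFieldFull N) σ f) =
      arithmeticRingAut (modularFunctionFieldFull M) σ
        (IntermediateField.inclusion (bar_le_of_dvd h) f) := by
  apply Subtype.ext
  rw [IntermediateField.coe_inclusion, coe_arithmeticRingAut_apply, coe_arithmeticRingAut_apply,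
    IntermediateField.coe_inclusion]

/-- `tauSubOne` commutes with the inclusion of levels. -/
theorem inclusion_tauSubOne {N M : ℕ} [NeZero N] [NeZero M] (h : N ∣ M)
    (σ : Q̄ ≃ₐ[ℚ] Q̄) (f : modularFunctionFieldBar N) :
    IntermediateField.inclusion (bar_le_of_dvd h)
        (tauSubOne (arithmeticRingAut (modularFunctionFieldFull N) σ) f) =
      tauSubOne (arithmeticRingAut (modularFunctionFieldFull M) σ)
        (IntermediateField.inclusion (bar_le_of_dvd h) f) := by
  unfold tauSubOne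
  rw [map_mul, map_inv₀, inclusion_arithmeticRingAut h σ f]

/-- **General descent**: `A2Kummer M → A2Kummer N` for `N ∣ M` when `[F_M : F_N]` is finite and
prime to `m`. -/
theorem a2Kummer_of_dvd (N M : ℕ) [NeZero N] [NeZero M] (hNM : N ∣ M) (m : ℕ)
    (σ : Q̄ ≃ₐ[ℚ] Q̄)
    (hd0 : (modularFunctionFieldBar N).relfinrank (modularFunctionFieldBar M) ≠ 0)
    (hcop : Nat.Coprime ((modularFunctionFieldBar N).relfinrank (modularFunctionFieldBar M)) m) :
    A2Kummer M m σ → A2Kummer N m σ := by
  intro hM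
  unfold A2Kummer KummerTwice at hM ⊢
  intro f hf hord
  rw [toRingAut_arithmeticGalois]
  rw [toRingAut_arithmeticGalois] at hM
  have hle := bar_le_of_dvd hNM
  set φ : modularFunctionFieldBar N →ₐ[Q̄] modularFunctionFieldBar M :=
    IntermediateField.inclusion hle with hφdef
  letI : Algebra (modularFunctionFieldBar N) (modularFunctionFieldBar M) := algebraAlong φ
  haveI : IsScalarTower Q̄ (modularFunctionFieldBar N) (modularFunctionFieldBar M) :=
    isScalarTower_along φ
  haveI hfd : FiniteDimensional (modularFunctionFieldBar N) (modularFunctionFieldBar M) :=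
    finiteDimensional_inclusion hle hd0
  have hfr : finrank (modularFunctionFieldBar N) (modularFunctionFieldBar M) =
      (modularFunctionFieldBar N).relfinrank (modularFunctionFieldBar M) :=
    finrank_inclusion_eq_relfinrank hle
  have hφint : φ.toRingHom.IsIntegral := fun x =>
    (Algebra.IsIntegral.of_finite (modularFunctionFieldBar N)
      (modularFunctionFieldBar M)).isIntegral x
  have hφf : φ f ≠ 0 := by
    rw [Ne, map_eq_zero_iff φ φ.toRingHom.injective]
    exact hf
  obtain ⟨y, c, hc, hyc⟩ := hM (φ f) hφf (fun w => by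
    rw [Place.ord_restrictAlong φ hφint w]
    exact Dvd.dvd.mul_left (hord _) _)
  -- the element to descend
  set τN := arithmeticRingAut (L := Q̄) (modularFunctionFieldFull N) σ with hτN
  set τM := arithmeticRingAut (L := Q̄) (modularFunctionFieldFull M) σ with hτM
  set u : modularFunctionFieldBar N := tauSubOne τN (tauSubOne τN f) with hu
  have hu0 : u ≠ 0 := tauSubOne_ne_zero τN (tauSubOne_ne_zero τN hf)
  have hφu : φ u = tauSubOne τM (tauSubOne τM (φ f)) := by
    rw [hu, hφdef, hτN, hτM, inclusion_tauSubOne hNM σ, inclusion_tauSubOne hNM σ]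
  have hyc' : φ u = algebraMap Q̄ (modularFunctionFieldBar M) c * y ^ m := by
    rw [hφu]
    exact hyc
  -- we may assume `y ≠ 0`
  obtain ⟨y₁, hy₁, hy₁c⟩ : ∃ y₁ : modularFunctionFieldBar M, y₁ ≠ 0 ∧
      φ u = algebraMap Q̄ (modularFunctionFieldBar M) c * y₁ ^ m := by
    by_cases hy : y = 0
    · rcases Nat.eq_zero_or_pos m with hm0 | hmpos
      · refine ⟨1, one_ne_zero, ?_⟩
        rw [hyc', hm0, pow_zero, pow_zero]
      · exfalso
        have hφu0 : φ u ≠ 0 := by
          rw [Ne, map_eq_zero_iff φ φ.toRingHom.injective]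
          exact hu0
        apply hφu0
        rw [hyc', hy, zero_pow hmpos.ne', mul_zero]
    · exact ⟨y, hy, hyc'⟩
  obtain ⟨c', y', hc', _, hfin⟩ :=
    exists_pow_of_norm_coprime m (by rw [hfr]; exact hcop) u hu0 c hc y₁ hy₁ hy₁c
  exact ⟨y', c', hc', hfin⟩

/-- Descent along `N ∣ N * p`, `p` prime not dividing `N`, when `p + 1` is prime to `m`. -/
theorem a2Kummer_of_mul_prime (N p : ℕ) [NeZero N] (hp : p.Prime) (hpN : ¬ p ∣ N) (m : ℕ)
    (σ : Q̄ ≃ₐ[ℚ] Q̄) (h2 : Nat.Coprime (p + 1) m) :
    A2Kummer (N * p) m σ → A2Kummer N m σ := by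
  haveI : NeZero (N * p) := ⟨Nat.mul_ne_zero (NeZero.ne N) hp.ne_zero⟩
  have hdeg := Fermat.Agent.S28.H988.relfinrank_bar_mul_prime N p (NeZero.ne N) hp
  rw [if_neg hpN] at hdeg
  refine a2Kummer_of_dvd N (N * p) (Dvd.intro p rfl) m σ ?_ ?_
  · rw [hdeg]; exact Nat.succ_ne_zero p
  · rw [hdeg]; exact h2

/-- The auxiliary level of cell A2 for the residue characteristic `q`
(the level at which the `S18` coordinate exists). -/
def auxLevel (N q : ℕ) : ℕ :=
  if q = 3 then Nat.lcm N 2 else if q = 2 then Nat.lcm N 3 else N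

theorem dvd_auxLevel (N q : ℕ) : N ∣ auxLevel N q := by
  unfold auxLevel
  split_ifs
  · exact Nat.dvd_lcm_left N 2
  · exact Nat.dvd_lcm_left N 3
  · exact dvd_rfl

theorem auxLevel_ne_zero (N q : ℕ) (hN : N ≠ 0) : auxLevel N q ≠ 0 := by
  unfold auxLevel
  split_ifs
  · exact Nat.lcm_ne_zero hN (by norm_num)
  · exact Nat.lcm_ne_zero hN (by norm_num)
  · exact hN

/-- `q` still divides the auxiliary level exactly once. -/
theorem dvd_auxLevel_of_dvd {N q : ℕ} (hqN : q ∣ N) : q ∣ auxLevel N q :=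
  hqN.trans (dvd_auxLevel N q)

theorem not_sq_dvd_auxLevel {N q : ℕ} (hq2 : ¬ q ^ 2 ∣ N) :
    ¬ q ^ 2 ∣ auxLevel N q := by
  unfold auxLevel
  split_ifs with h3 h2
  · subst h3
    intro h
    have h1 : (3 : ℕ) ^ 2 ∣ N * 2 := h.trans (Nat.lcm_dvd_mul N 2)
    have hc : Nat.Coprime (3 ^ 2) 2 := by norm_num
    exact hq2 (hc.dvd_of_dvd_mul_right h1)
  · subst h2
    intro h
    have h1 : (2 : ℕ) ^ 2 ∣ N * 3 := h.trans (Nat.lcm_dvd_mul N 3)
    have hc : Nat.Coprime (2 ^ 2) 3 := by norm_num
    exact hq2 (hc.dvd_of_dvd_mul_right h1)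
  · exact hq2

/-- **NODE D2 for A2**: the Kummer form of wall A2 at the auxiliary level implies the Kummer
form at level `N`, for `m` prime to `q`. -/
theorem a2Kummer_node_d2 (N : ℕ) [NeZero N] (q : ℕ) (m : ℕ) (hm : ¬ q ∣ m)
    (σ : Q̄ ≃ₐ[ℚ] Q̄) :
    A2Kummer (if q = 3 then Nat.lcm N 2 else if q = 2 then Nat.lcm N 3 else N) m σ →
      A2Kummer N m σ := by
  split_ifs with h3 h2
  · -- q = 3, aux level lcm N 2
    subst h3
    by_cases h : 2 ∣ N
    · rw [Nat.lcm_eq_left h]; exact id
    · have hc : Nat.Coprime N 2 :=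
        (Nat.coprime_comm.mp ((Nat.Prime.coprime_iff_not_dvd Nat.prime_two).mpr h))
      rw [hc.lcm_eq_mul]
      have hm3 : Nat.Coprime 3 m := (Nat.Prime.coprime_iff_not_dvd Nat.prime_three).mpr hm
      exact a2Kummer_of_mul_prime N 2 Nat.prime_two h m σ hm3
  · -- q = 2, aux level lcm N 3
    subst h2
    by_cases h : 3 ∣ N
    · rw [Nat.lcm_eq_left h]; exact id
    · have hc : Nat.Coprime N 3 :=
        (Nat.coprime_comm.mp ((Nat.Prime.coprime_iff_not_dvd Nat.prime_three).mpr h))
      rw [hc.lcm_eq_mul]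
      have hm2 : Nat.Coprime 2 m := (Nat.Prime.coprime_iff_not_dvd Nat.prime_two).mpr hm
      have hm4 : Nat.Coprime (3 + 1) m := by
        have : (3 + 1 : ℕ) = 2 ^ 2 := by norm_num
        rw [this]
        exact Nat.Coprime.pow_left 2 hm2
      exact a2Kummer_of_mul_prime N 3 Nat.prime_three h m σ hm4
  · exact id

/-- The same with `auxLevel`. -/
theorem a2Kummer_of_auxLevel (N : ℕ) [NeZero N] (q : ℕ) (m : ℕ) (hm : ¬ q ∣ m)
    (σ : Q̄ ≃ₐ[ℚ] Q̄) (H : A2Kummer (auxLevel N q) m σ) : A2Kummer N m σ :=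
  a2Kummer_node_d2 N q m hm σ H

/-- **Strong A2 at level `N` from the Kummer form at the auxiliary level.** -/
theorem unipotent_JZero_of_kummer_aux (N : ℕ) [NeZero N] (q m : ℕ) (hm0 : m ≠ 0) (hm : ¬ q ∣ m)
    (σ : Q̄ ≃ₐ[ℚ] Q̄) (H : A2Kummer (auxLevel N q) m σ)
    (x : JZero N) (hx : m • x = 0) :
    σ • (σ • x - x) = σ • x - x :=
  unipotent_JZero_of_kummer N m hm0 σ (a2Kummer_of_auxLevel N q m hm σ H) x hx

end Fermat.Agent.A2.H133

end

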