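import Fermat.Agent.A2.Top.H994.Wall
import Fermat.Agent.A2.H133.D2

/-!
# A2 / D2 in the frozen shape (helper133)

* `kummerTarget_of_dvd` : for `N ∣ M` with `[F_M : F_N]` finite and prime to `m`,
  `KummerTarget M q m → KummerTarget N q m` (`Fermat.Agent.A2.KummerTarget`, frozen `Spec.lean`).
* `kummerTarget_of_mul_prime` : the case `M = N * p`.
* `d2Statement : Fermat.Agent.A2.Top.H994.D2Statement` — the EXACT hypothesis `hD2` of
  `Top.H994.wall` / `kummerTarget_all`.

Proof: as in `D2.lean` (arithmetic Galois commutes with the inclusion of levels,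
`Place.ord_restrictAlong`, norm trick `S18.H568.exists_pow_of_norm_coprime`); the constant produced
by the norm trick is an `m`-th power because `Q̄` is algebraically closed.
-/

set_option autoImplicit false
set_option linter.style.haveILetI false

noncomputable section

namespace Fermat.Agent.A2.H133

open ModularCurve AlgebraicCurve HahnSeries IntermediateField Module
open Fermat.Agent.S18.H568

local notation "Q̄" => AlgebraicClosure ℚ

/-- **General descent, frozen shape**: `KummerTarget M → KummerTarget N` for `N ∣ M` when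
`[F_M : F_N]` is finite and prime to `m`. -/
theorem kummerTarget_of_dvd (N M q m : ℕ) [NeZero N] [NeZero M] (hNM : N ∣ M) (hm : 0 < m)
    (hd0 : (modularFunctionFieldBar N).relfinrank (modularFunctionFieldBar M) ≠ 0)
    (hcop : Nat.Coprime ((modularFunctionFieldBar N).relfinrank (modularFunctionFieldBar M)) m) :
    Fermat.Agent.A2.KummerTarget M q m → Fermat.Agent.A2.KummerTarget N q m := by
  intro hM P hP τ hτ f hf hord
  have hle := bar_le_of_dvd hNM
  set φ : modularFunctionFieldBar N →ₐ[Q̄] modularFunctionFieldBar M :=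
    IntermediateField.inclusion hle with hφdef
  letI : Algebra (modularFunctionFieldBar N) (modularFunctionFieldBar M) := algebraAlong φ
  haveI : IsScalarTower Q̄ (modularFunctionFieldBar N) (modularFunctionFieldBar M) :=
    isScalarTower_along φ
  haveI hfd : FiniteDimensional (modularFunctionFieldBar N) (modularFunctionFieldBar M) :=
    finiteDimensional_inclusion hle hd0
  have hfr : finrank (modularFunctionFieldBar N) (modularFunctionFieldBar M) =
      (modularFunctionFieldBar N).relfinrank (modularFunctionFieldBar M) :=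
    finrank_inclusion_eq_relfinrank hle
  have hφint : φ.toRingHom.IsIntegral := fun x =>
    (Algebra.IsIntegral.of_finite (modularFunctionFieldBar N)
      (modularFunctionFieldBar M)).isIntegral x
  have hφinj : Function.Injective φ := φ.toRingHom.injective
  have hφf : φ f ≠ 0 := by
    rw [Ne, map_eq_zero_iff φ hφinj]
    exact hf
  obtain ⟨h, hh, hrel⟩ := hM P hP τ hτ (φ f) hφf (fun w => by
    rw [Place.ord_restrictAlong φ hφint w]
    exact Dvd.dvd.mul_left (hord _) _)
  -- notation
  set τN := arithmeticRingAut (L := Q̄) (modularFunctionFieldFull N) τ with hτN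
  set τM := arithmeticRingAut (L := Q̄) (modularFunctionFieldFull M) τ with hτM
  have hcomm : ∀ x : modularFunctionFieldBar N, φ (τN x) = τM (φ x) := fun x => by
    rw [hφdef, hτN, hτM]
    exact inclusion_arithmeticRingAut hNM τ x
  have hτf : τN f ≠ 0 := by
    rw [Ne, map_eq_zero_iff τN τN.injective]
    exact hf
  -- the element to descend
  set u : modularFunctionFieldBar N := τN (τN f) * f * ((τN f) ^ 2)⁻¹ with hu
  have hu0 : u ≠ 0 := by
    rw [hu]
    refine mul_ne_zero (mul_ne_zero ?_ hf) (inv_ne_zero (pow_ne_zero 2 hτf))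
    rw [Ne, map_eq_zero_iff τN τN.injective]
    exact hτf
  have hφτf : φ (τN f) ≠ 0 := by
    rw [Ne, map_eq_zero_iff φ hφinj]
    exact hτf
  have hφu : φ u = h ^ m := by
    have hrel' : τM (τM (φ f)) * φ f = h ^ m * (τM (φ f)) ^ 2 := hrel
    rw [hu, map_mul, map_mul, map_inv₀, map_pow, hcomm, hcomm, hrel', ← hcomm f]
    field_simp
  have hkey : algebraMap (modularFunctionFieldBar N) (modularFunctionFieldBar M) u =
      algebraMap Q̄ (modularFunctionFieldBar M) 1 * h ^ m := by
    rw [map_one, one_mul]
    exact hφu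
  obtain ⟨c', y', hc', hy', hfin⟩ :=
    exists_pow_of_norm_coprime m (by rw [hfr]; exact hcop) u hu0 (1 : Q̄) one_ne_zero h hh hkey
  obtain ⟨e, he⟩ := IsAlgClosed.exists_pow_nat_eq c' hm
  have he0 : e ≠ 0 := by
    rintro rfl
    rw [zero_pow hm.ne'] at he
    exact hc' he.symm
  refine ⟨algebraMap Q̄ (modularFunctionFieldBar N) e * y', mul_ne_zero ?_ hy', ?_⟩
  · rw [Ne, map_eq_zero_iff _ (algebraMap Q̄ (modularFunctionFieldBar N)).injective]
    exact he0
  · have h1 : τN (τN f) * f = u * (τN f) ^ 2 := by
      rw [hu]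
      field_simp
    show τN (τN f) * f = (algebraMap Q̄ (modularFunctionFieldBar N) e * y') ^ m * (τN f) ^ 2
    rw [h1, hfin, mul_pow, ← he, map_pow]

/-- Descent along `N ∣ N * p`, `p` prime not dividing `N`, when `p + 1` is prime to `m`. -/
theorem kummerTarget_of_mul_prime (N p q m : ℕ) [NeZero N] (hp : p.Prime) (hpN : ¬ p ∣ N)
    (hm : 0 < m) (h2 : Nat.Coprime (p + 1) m) :
    Fermat.Agent.A2.KummerTarget (N * p) q m → Fermat.Agent.A2.KummerTarget N q m := by
  haveI : NeZero (N * p) := ⟨Nat.mul_ne_zero (NeZero.ne N) hp.ne_zero⟩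
  have hdeg := Fermat.Agent.S28.H988.relfinrank_bar_mul_prime N p (NeZero.ne N) hp
  rw [if_neg hpN] at hdeg
  refine kummerTarget_of_dvd N (N * p) q m (Dvd.intro p rfl) hm ?_ ?_
  · rw [hdeg]; exact Nat.succ_ne_zero p
  · rw [hdeg]; exact h2

/-- **D2 in the frozen shape**: the hypothesis `hD2` of `Top.H994.wall`. -/
theorem d2Statement : Fermat.Agent.A2.Top.H994.D2Statement := by
  intro N q m _hq _hqN _hq2 hN hm hqm
  haveI : NeZero N := ⟨hN⟩
  unfold Fermat.Agent.A2.Top.H994.auxLevel
  split_ifs with h3 h2
  · -- q = 3, aux level lcm N 2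
    subst h3
    by_cases h : 2 ∣ N
    · rw [Nat.lcm_eq_left h]; exact id
    · have hc : Nat.Coprime N 2 :=
        (Nat.coprime_comm.mp ((Nat.Prime.coprime_iff_not_dvd Nat.prime_two).mpr h))
      rw [hc.lcm_eq_mul]
      have hm3 : Nat.Coprime 3 m := (Nat.Prime.coprime_iff_not_dvd Nat.prime_three).mpr hqm
      exact kummerTarget_of_mul_prime N 2 3 m Nat.prime_two h hm hm3
  · -- q = 2, aux level lcm N 3
    subst h2
    by_cases h : 3 ∣ N
    · rw [Nat.lcm_eq_left h]; exact id
    · have hc : Nat.Coprime N 3 :=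
        (Nat.coprime_comm.mp ((Nat.Prime.coprime_iff_not_dvd Nat.prime_three).mpr h))
      rw [hc.lcm_eq_mul]
      have hm2 : Nat.Coprime 2 m := (Nat.Prime.coprime_iff_not_dvd Nat.prime_two).mpr hqm
      have hm4 : Nat.Coprime (3 + 1) m := by
        have : (3 + 1 : ℕ) = 2 ^ 2 := by norm_num
        rw [this]
        exact Nat.Coprime.pow_left 2 hm2
      exact kummerTarget_of_mul_prime N 3 2 m Nat.prime_three h hm hm4
  · exact id

end Fermat.Agent.A2.H133

end
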